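/-
S53 (universal deformation ring): the OUTPUT interface of the pro-limit construction.

Given an `𝒪`-algebra `P` and a family `U` of ideals of `P` (in the application:
`P = MvPolynomial (GQ × Fin 2 × Fin 2) 𝒪` and `U = {I | InU F 𝒟 I}`), `ProLimitData 𝒪 P U`
packages a complete Noetherian local `𝒪`-algebra `R` with residue field that of `𝒪`, which
is "the inverse limit of the `P ⧸ I`, `I ∈ U`":
* `ι : P →ₐ[𝒪] R` (so the universal matrix entries are `ι (X (σ, a, b))`);
* `π I hI : R →ₐ[𝒪] P ⧸ I`, with `π I hI (ι x) = mk I x` (hence surjective), compatible with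
  the transition maps, jointly injective;
* the kernels of the `π I hI` are cofinal among the powers of the maximal ideal of `R`.
-/
import Mathlib

set_option autoImplicit false

namespace Fermat.Agent.Lib.Helper5

open IsLocalRing

/-- A complete Noetherian local `𝒪`-algebra `R` presented as the inverse limit of the
quotients `P ⧸ I`, `I ∈ U`. -/
structure ProLimitData (𝒪 : Type) [CommRing 𝒪] [IsLocalRing 𝒪] (P : Type) [CommRing P]
    [Algebra 𝒪 P] (U : Set (Ideal P)) : Type 1 where
  /-- the limit ring -/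
  R : Type
  [instCommRing : CommRing R]
  [instIsLocalRing : IsLocalRing R]
  [instIsNoetherianRing : IsNoetherianRing R]
  [instIsAdicComplete : IsAdicComplete (maximalIdeal R) R]
  [instAlgebra : Algebra 𝒪 R]
  [instIsLocalHom : IsLocalHom (algebraMap 𝒪 R)]
  residue_surjective : Function.Surjective (residue R ∘ algebraMap 𝒪 R)
  /-- the canonical map from `P` (dense image) -/
  ι : P →ₐ[𝒪] R
  /-- the projections -/
  π : ∀ I : Ideal P, I ∈ U → (R →ₐ[𝒪] P ⧸ I)
  π_ι : ∀ (I : Ideal P) (hI : I ∈ U) (x : P), π I hI (ι x) = Ideal.Quotient.mk I x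
  π_comp : ∀ (I I' : Ideal P) (hI : I ∈ U) (hI' : I' ∈ U) (h : I ≤ I') (x : R),
    Ideal.Quotient.factor h (π I hI x) = π I' hI' x
  π_injective : ∀ x : R, (∀ (I : Ideal P) (hI : I ∈ U), π I hI x = 0) → x = 0
  cofinal : ∀ n : ℕ, ∃ (I : Ideal P) (hI : I ∈ U), RingHom.ker (π I hI) ≤ maximalIdeal R ^ n

attribute [instance] ProLimitData.instCommRing ProLimitData.instIsLocalRing
  ProLimitData.instIsNoetherianRing ProLimitData.instIsAdicComplete
  ProLimitData.instAlgebra ProLimitData.instIsLocalHom

namespace ProLimitData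

variable {𝒪 : Type} [CommRing 𝒪] [IsLocalRing 𝒪] {P : Type} [CommRing P] [Algebra 𝒪 P]
  {U : Set (Ideal P)} (D : ProLimitData 𝒪 P U)

theorem π_surjective (I : Ideal P) (hI : I ∈ U) : Function.Surjective (D.π I hI) := by
  intro y
  obtain ⟨x, rfl⟩ := Ideal.Quotient.mk_surjective y
  exact ⟨D.ι x, D.π_ι I hI x⟩

/-- Two elements of `R` with the same image in every `P ⧸ I` are equal. -/
theorem ext_π {x y : R D} (h : ∀ (I : Ideal P) (hI : I ∈ U), D.π I hI x = D.π I hI y) :
    x = y := by
  rw [← sub_eq_zero]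
  exact D.π_injective _ fun I hI => by rw [map_sub, h I hI, sub_self]

end ProLimitData

end Fermat.Agent.Lib.Helper5
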