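import Mathlib

/-!
Regular sequences and generators of the maximal ideal for `MvPowerSeries (Fin r) 𝒪`
over a local ring `𝒪` whose maximal ideal is generated by a regular element.
-/

set_option autoImplicit false

namespace Fermat.Agent.Lib.Helper5

open IsLocalRing RingTheory.Sequence Pointwise

universe u

section PS

variable (A : Type u) [CommRing A]

theorem isSMulRegular_powerSeries_X :
    IsSMulRegular (PowerSeries A) (PowerSeries.X : PowerSeries A) := by
  intro a b hab
  exact PowerSeries.X_mul_cancel (by simpa using hab)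

theorem X_smul_top_toAddSubgroup :
    ((PowerSeries.X : PowerSeries A) •
        (⊤ : Submodule (PowerSeries A) (PowerSeries A))).toAddSubgroup =
      ((PowerSeries.constantCoeff (R := A)) : PowerSeries A →+ A).ker := by
  ext f
  rw [Submodule.mem_toAddSubgroup, AddMonoidHom.mem_ker]
  constructor
  · intro hf
    obtain ⟨g, -, rfl⟩ := (Submodule.mem_smul_pointwise_iff_exists _ _ _).mp hf
    simp
  · intro hf
    have hf' : PowerSeries.constantCoeff f = 0 := hf
    obtain ⟨g, rfl⟩ := PowerSeries.X_dvd_iff.mpr hf'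
    exact Submodule.smul_mem_pointwise_smul g _ _ Submodule.mem_top

/-- `A⟦X⟧ / X ≃+ A`. -/
noncomputable def quotXAddEquiv :
    QuotSMulTop (PowerSeries.X : PowerSeries A) (PowerSeries A) ≃+ A :=
  (QuotientAddGroup.quotientAddEquivOfEq (X_smul_top_toAddSubgroup A)).trans
    (QuotientAddGroup.quotientKerEquivOfSurjective
      ((PowerSeries.constantCoeff (R := A)) : PowerSeries A →+ A)
      (fun a => ⟨PowerSeries.C a, by simp⟩))

theorem quotXAddEquiv_mk (f : PowerSeries A) :
    quotXAddEquiv A (Submodule.Quotient.mk f) = PowerSeries.constantCoeff f := rfl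

theorem isWeaklyRegular_X_cons {L : List A} (hL : IsWeaklyRegular A L) :
    IsWeaklyRegular (PowerSeries A) (PowerSeries.X :: L.map (PowerSeries.C (R := A))) := by
  rw [isWeaklyRegular_cons_iff]
  refine ⟨isSMulRegular_powerSeries_X A, ?_⟩
  refine (AddEquiv.isWeaklyRegular_congr (e := quotXAddEquiv A) ?_).mpr hL
  rw [List.forall₂_map_left_iff]
  refine List.forall₂_same.mpr fun s _ x => ?_
  obtain ⟨f, rfl⟩ := Submodule.Quotient.mk_surjective _ x
  rw [← Submodule.Quotient.mk_smul, quotXAddEquiv_mk, quotXAddEquiv_mk]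
  simp

theorem maximalIdeal_powerSeries_le [IsLocalRing A] {L : List A}
    (hL : maximalIdeal A ≤ Ideal.ofList L) :
    maximalIdeal (PowerSeries A) ≤
      Ideal.ofList (PowerSeries.X :: L.map (PowerSeries.C (R := A))) := by
  intro f hf
  rw [Ideal.ofList_cons, ← Ideal.map_ofList]
  have h0 : PowerSeries.constantCoeff f ∈ maximalIdeal A := by
    rw [mem_maximalIdeal, mem_nonunits_iff] at hf ⊢
    rwa [PowerSeries.isUnit_iff_constantCoeff] at hf
  rw [PowerSeries.eq_X_mul_shift_add_const f]
  refine Ideal.add_mem _ ?_ ?_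
  · exact Ideal.mem_sup_left (Ideal.mul_mem_right _ _ (Ideal.mem_span_singleton_self _))
  · exact Ideal.mem_sup_right (Ideal.mem_map_of_mem _ (hL h0))

end PS

theorem isWeaklyRegular_map_symm {S T : Type u} [CommRing S] [CommRing T] (e : S ≃+* T)
    {L : List T} (hL : IsWeaklyRegular T L) : IsWeaklyRegular S (L.map e.symm) := by
  refine (AddEquiv.isWeaklyRegular_congr (e := e.toAddEquiv) ?_).mpr hL
  rw [List.forall₂_map_left_iff]
  refine List.forall₂_same.mpr fun s _ x => ?_
  simp

theorem maximalIdeal_le_ofList_map_symm {S T : Type u} [CommRing S] [CommRing T] [IsLocalRing S]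
    [IsLocalRing T] (e : S ≃+* T) {L : List T} (hL : maximalIdeal T ≤ Ideal.ofList L) :
    maximalIdeal S ≤ Ideal.ofList (L.map e.symm) := by
  rw [← map_ringEquiv_maximalIdeal e.symm]
  have := Ideal.map_mono (f := (e.symm : T →+* S)) hL
  rwa [Ideal.map_ofList] at this

/-- For a local ring `𝒪` whose maximal ideal is generated by a regular element `ϖ`, the power
series ring in `r` variables has a weakly regular sequence of length `r + 1` consisting of
`ϖ` and the variables, and generating the maximal ideal. -/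
theorem exists_regular_generators_mvPowerSeries (𝒪 : Type u) [CommRing 𝒪] [IsLocalRing 𝒪]
    (ϖ : 𝒪) (hreg : IsSMulRegular 𝒪 ϖ) (hmax : maximalIdeal 𝒪 ≤ Ideal.span {ϖ}) (r : ℕ) :
    ∃ L : List (MvPowerSeries (Fin r) 𝒪), L.length = r + 1 ∧
      IsWeaklyRegular (MvPowerSeries (Fin r) 𝒪) L ∧
      (∀ s ∈ L, s = MvPowerSeries.C ϖ ∨ ∃ i, s = MvPowerSeries.X i) ∧
      maximalIdeal (MvPowerSeries (Fin r) 𝒪) ≤ Ideal.ofList L := by
  induction r with
  | zero =>
    let e0 : MvPowerSeries (Fin 0) 𝒪 ≃+* 𝒪 := (MvPowerSeries.isEmptyEquiv (Fin 0) 𝒪).toRingEquiv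
    refine ⟨[ϖ].map e0.symm, by simp, ?_, ?_, ?_⟩
    · exact isWeaklyRegular_map_symm e0 ((isWeaklyRegular_singleton_iff 𝒪 ϖ).mpr hreg)
    · intro s hs
      simp only [List.map_cons, List.map_nil, List.mem_singleton] at hs
      left; rw [hs]; rfl
    · apply maximalIdeal_le_ofList_map_symm e0
      rwa [Ideal.ofList_singleton]
  | succ r ih =>
    obtain ⟨L, hlen, hwr, hform, hmaxL⟩ := ih
    let e : MvPowerSeries (Fin (r + 1)) 𝒪 ≃+* PowerSeries (MvPowerSeries (Fin r) 𝒪) :=
      (MvPowerSeries.finSuccEquiv 𝒪 r).toRingEquiv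
    refine ⟨(PowerSeries.X :: L.map (PowerSeries.C (R := MvPowerSeries (Fin r) 𝒪))).map e.symm,
      by simp [hlen], ?_, ?_, ?_⟩
    · exact isWeaklyRegular_map_symm e (isWeaklyRegular_X_cons _ hwr)
    · intro s hs
      simp only [List.map_cons, List.map_map, List.mem_cons, List.mem_map,
        Function.comp_apply] at hs
      rcases hs with rfl | ⟨t, ht, rfl⟩
      · right; refine ⟨0, ?_⟩
        rw [RingEquiv.symm_apply_eq]
        exact (MvPowerSeries.finSuccEquiv_X_zero).symm
      · rcases hform t ht with rfl | ⟨i, rfl⟩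
        · left
          rw [RingEquiv.symm_apply_eq]
          exact (MvPowerSeries.finSuccEquiv_C ϖ).symm
        · right; refine ⟨i.succ, ?_⟩
          rw [RingEquiv.symm_apply_eq]
          exact (MvPowerSeries.finSuccEquiv_X_succ i).symm
    · exact maximalIdeal_le_ofList_map_symm e (maximalIdeal_powerSeries_le _ hmaxL)

end Fermat.Agent.Lib.Helper5
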