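/-
S53 (universal deformation ring): the abstract pro-limit construction.

`S` is a complete Noetherian local `𝒪`-algebra with finite quotients `S ⧸ 𝔫^m`, `U` is a nonempty
family of proper ideals of an `𝒪`-algebra `P`, closed under `⊓`, and `u I : S →ₐ[𝒪] P ⧸ I`
(`I ∈ U`) is a compatible family of surjections with open kernels.  Then `R := S ⧸ ⨅ ker (u I)`
is "the inverse limit of the `P ⧸ I`": we construct a `ProLimitData 𝒪 P U`.
-/
import Mathlib
import Fermat.Prelude.Thm_IsLocalRing_isAdicComplete_of_module_finite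
import Fermat.Agent.Lib.Helper5.ProLimitData
import Fermat.Agent.Lib.S53.Compact

set_option autoImplicit false

namespace Fermat.Agent.Lib.Helper5

open IsLocalRing

section ProLimit

variable {𝒪 S P : Type} [CommRing 𝒪] [CommRing S] [Algebra 𝒪 S] [CommRing P] [Algebra 𝒪 P]
variable (U : Set (Ideal P)) (u : ∀ I : Ideal P, I ∈ U → (S →ₐ[𝒪] P ⧸ I))

/-- The intersection of the kernels of the `u I`. -/
def limKer : Ideal S := ⨅ (I : Ideal P) (hI : I ∈ U), RingHom.ker (u I hI)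

theorem mem_limKer {x : S} : x ∈ limKer U u ↔ ∀ (I : Ideal P) (hI : I ∈ U), u I hI x = 0 := by
  simp only [limKer, Ideal.mem_iInf, RingHom.mem_ker]

theorem limKer_le_ker (I : Ideal P) (hI : I ∈ U) : limKer U u ≤ RingHom.ker (u I hI) :=
  fun _ hx => RingHom.mem_ker.mpr ((mem_limKer U u).1 hx I hI)

/-- The projections `S ⧸ limKer → P ⧸ I`. -/
noncomputable def limProj (I : Ideal P) (hI : I ∈ U) : (S ⧸ limKer U u) →ₐ[𝒪] P ⧸ I :=
  Ideal.Quotient.liftₐ (limKer U u) (u I hI) fun _ hx => (mem_limKer U u).1 hx I hI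

@[simp]
theorem limProj_mk (I : Ideal P) (hI : I ∈ U) (s : S) :
    limProj U u I hI (Ideal.Quotient.mk (limKer U u) s) = u I hI s := by
  rfl

theorem limProj_jointly_injective (x : S ⧸ limKer U u)
    (h : ∀ (I : Ideal P) (hI : I ∈ U), limProj U u I hI x = 0) : x = 0 := by
  obtain ⟨s, rfl⟩ := Ideal.Quotient.mk_surjective x
  rw [Ideal.Quotient.eq_zero_iff_mem, mem_limKer]
  intro I hI
  simpa using h I hI

theorem limProj_ext {x y : S ⧸ limKer U u}
    (h : ∀ (I : Ideal P) (hI : I ∈ U), limProj U u I hI x = limProj U u I hI y) : x = y := by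
  rw [← sub_eq_zero]
  exact limProj_jointly_injective U u _ fun I hI => by rw [map_sub, h I hI, sub_self]

variable {U u}

theorem limProj_comp
    (hcomp : ∀ (I I' : Ideal P) (hI : I ∈ U) (hI' : I' ∈ U) (h : I ≤ I') (x : S),
      Ideal.Quotient.factor h (u I hI x) = u I' hI' x)
    (I I' : Ideal P) (hI : I ∈ U) (hI' : I' ∈ U) (h : I ≤ I') (x : S ⧸ limKer U u) :
    Ideal.Quotient.factor h (limProj U u I hI x) = limProj U u I' hI' x := by
  obtain ⟨s, rfl⟩ := Ideal.Quotient.mk_surjective x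
  simp only [limProj_mk]
  exact hcomp I I' hI hI' h s

theorem ker_mono
    (hcomp : ∀ (I I' : Ideal P) (hI : I ∈ U) (hI' : I' ∈ U) (h : I ≤ I') (x : S),
      Ideal.Quotient.factor h (u I hI x) = u I' hI' x)
    (I I' : Ideal P) (hI : I ∈ U) (hI' : I' ∈ U) (h : I ≤ I') :
    RingHom.ker (u I hI) ≤ RingHom.ker (u I' hI') := by
  intro x hx
  rw [RingHom.mem_ker] at hx ⊢
  rw [← hcomp I I' hI hI' h x, hx, map_zero]

/-- Every finite subfamily of `U` has a lower bound in `U`. -/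
theorem exists_lower_bound (hne : U.Nonempty) (hinf : ∀ I ∈ U, ∀ I' ∈ U, I ⊓ I' ∈ U)
    (F : Finset {I : Ideal P // I ∈ U}) : ∃ I₀ ∈ U, ∀ j ∈ F, I₀ ≤ j.1 := by
  classical
  induction F using Finset.induction_on with
  | empty =>
    obtain ⟨I, hI⟩ := hne
    exact ⟨I, hI, by simp⟩
  | insert j F _ ih =>
    obtain ⟨I₀, hI₀, h⟩ := ih
    refine ⟨I₀ ⊓ j.1, hinf _ hI₀ _ j.2, fun i hi => ?_⟩
    rcases Finset.mem_insert.1 hi with rfl | hi
    · exact inf_le_right
    · exact inf_le_left.trans (h i hi)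

end ProLimit

section Main

variable {𝒪 S P : Type} [CommRing 𝒪] [CommRing S] [IsLocalRing S]
  [IsAdicComplete (maximalIdeal S) S] [Algebra 𝒪 S] [CommRing P] [Algebra 𝒪 P]
variable {U : Set (Ideal P)} {u : ∀ I : Ideal P, I ∈ U → (S →ₐ[𝒪] P ⧸ I)}

/-- Compatible families `(x mod I)_I` come from `S`. -/
theorem exists_lift_of_compatible
    (hfin : ∀ m, Finite (S ⧸ maximalIdeal S ^ m))
    (hne : U.Nonempty) (hinf : ∀ I ∈ U, ∀ I' ∈ U, I ⊓ I' ∈ U)
    (hsurj : ∀ (I : Ideal P) (hI : I ∈ U), Function.Surjective (u I hI))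
    (hcomp : ∀ (I I' : Ideal P) (hI : I ∈ U) (hI' : I' ∈ U) (h : I ≤ I') (x : S),
      Ideal.Quotient.factor h (u I hI x) = u I' hI' x)
    (hopen : ∀ (I : Ideal P) (hI : I ∈ U), ∃ m, maximalIdeal S ^ m ≤ RingHom.ker (u I hI))
    (x : P) : ∃ s : S, ∀ (I : Ideal P) (hI : I ∈ U), u I hI s = Ideal.Quotient.mk I x := by
  choose a ha using fun j : {I : Ideal P // I ∈ U} => hsurj j.1 j.2 (Ideal.Quotient.mk j.1 x)
  obtain ⟨f, hf⟩ := S53.exists_forall_sub_mem_of_finite_quotients (maximalIdeal S)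
    (fun j : {I : Ideal P // I ∈ U} => RingHom.ker (u j.1 j.2)) a hfin (fun j => hopen j.1 j.2) (by
      intro F
      obtain ⟨I₀, hI₀, hle⟩ := exists_lower_bound hne hinf F
      obtain ⟨f, hf⟩ := hsurj I₀ hI₀ (Ideal.Quotient.mk I₀ x)
      refine ⟨f, fun j hj => ?_⟩
      rw [RingHom.mem_ker, map_sub, ha j, ← hcomp I₀ j.1 hI₀ j.2 (hle j hj) f, hf,
        Ideal.Quotient.factor_mk, sub_self])
  refine ⟨f, fun I hI => ?_⟩
  have := hf ⟨I, hI⟩
  rw [RingHom.mem_ker, map_sub, ha ⟨I, hI⟩, sub_eq_zero] at this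
  exact this

/-- Chevalley-type cofinality: some `ker (u I)` is contained in `limKer ⊔ 𝔫^n`. -/
theorem exists_ker_le_limKer_sup_pow
    (hfin : ∀ m, Finite (S ⧸ maximalIdeal S ^ m))
    (hne : U.Nonempty) (hinf : ∀ I ∈ U, ∀ I' ∈ U, I ⊓ I' ∈ U)
    (hcomp : ∀ (I I' : Ideal P) (hI : I ∈ U) (hI' : I' ∈ U) (h : I ≤ I') (x : S),
      Ideal.Quotient.factor h (u I hI x) = u I' hI' x)
    (hopen : ∀ (I : Ideal P) (hI : I ∈ U), ∃ m, maximalIdeal S ^ m ≤ RingHom.ker (u I hI))
    (n : ℕ) : ∃ (I : Ideal P) (hI : I ∈ U),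
      RingHom.ker (u I hI) ≤ limKer U u ⊔ maximalIdeal S ^ n := by
  classical
  have : Finite (S ⧸ maximalIdeal S ^ n) := hfin n
  -- images of the kernels in the finite module `S ⧸ 𝔫^n`
  set N : Ideal S := maximalIdeal S ^ n with hN
  let G : ∀ I : Ideal P, I ∈ U → Submodule S (S ⧸ N) := fun I hI =>
    Submodule.map N.mkQ (RingHom.ker (u I hI))
  have hGcomap : ∀ (I : Ideal P) (hI : I ∈ U), Submodule.comap N.mkQ (G I hI) =
      N ⊔ RingHom.ker (u I hI) := fun I hI => Submodule.comap_map_mkQ _ _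
  have hGmono : ∀ (I I' : Ideal P) (hI : I ∈ U) (hI' : I' ∈ U), I ≤ I' → G I hI ≤ G I' hI' :=
    fun I I' hI hI' h => Submodule.map_mono (ker_mono hcomp I I' hI hI' h)
  obtain ⟨I₁, hI₁⟩ := hne
  obtain ⟨G₀, ⟨I₀, hI₀, rfl⟩, hmin⟩ := IsArtinian.set_has_minimal
    {G' : Submodule S (S ⧸ N) | ∃ (I : Ideal P) (hI : I ∈ U), G' = G I hI}
    ⟨G I₁ hI₁, I₁, hI₁, rfl⟩
  -- `G I₀` is the minimum
  have hmin' : ∀ (I : Ideal P) (hI : I ∈ U), G I₀ hI₀ ≤ G I hI := by
    intro I hI
    have h1 : G (I₀ ⊓ I) (hinf _ hI₀ _ hI) ≤ G I₀ hI₀ := hGmono _ _ _ _ inf_le_left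
    have h2 : G (I₀ ⊓ I) (hinf _ hI₀ _ hI) ≤ G I hI := hGmono _ _ _ _ inf_le_right
    have h3 : ¬ G (I₀ ⊓ I) (hinf _ hI₀ _ hI) < G I₀ hI₀ := hmin _ ⟨_, _, rfl⟩
    have h4 : G (I₀ ⊓ I) (hinf _ hI₀ _ hI) = G I₀ hI₀ := by
      by_contra hne'
      exact h3 (lt_of_le_of_ne h1 hne')
    rw [← h4]
    exact h2
  have hker : ∀ (I : Ideal P) (hI : I ∈ U),
      RingHom.ker (u I₀ hI₀) ≤ N ⊔ RingHom.ker (u I hI) := by
    intro I hI
    have h1 : RingHom.ker (u I₀ hI₀) ≤ Submodule.comap N.mkQ (G I₀ hI₀) := by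
      rw [hGcomap]
      exact le_sup_right
    refine h1.trans ?_
    rw [← hGcomap I hI]
    exact Submodule.comap_mono (hmin' I hI)
  refine ⟨I₀, hI₀, fun f hf => ?_⟩
  -- compactness: find `g ∈ 𝔫^n` with `f - g ∈ limKer`
  obtain ⟨g, hg⟩ := S53.exists_forall_sub_mem_of_finite_quotients (maximalIdeal S)
    (fun j : Option {I : Ideal P // I ∈ U} => match j with
      | none => N
      | some j => RingHom.ker (u j.1 j.2))
    (fun j : Option {I : Ideal P // I ∈ U} => match j with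
      | none => 0
      | some _ => f) hfin
    (fun j => match j with
      | none => ⟨n, le_rfl⟩
      | some j => hopen j.1 j.2)
    (by
      intro F
      obtain ⟨I₂, hI₂, hle⟩ := exists_lower_bound ⟨I₁, hI₁⟩ hinf
        (F.preimage Option.some (Option.some_injective _).injOn)
      have hf2 : f ∈ N ⊔ RingHom.ker (u I₂ hI₂) := hker I₂ hI₂ hf
      obtain ⟨t, ht, k, hk, rfl⟩ := Submodule.mem_sup.1 hf2
      refine ⟨t, fun j hj => ?_⟩
      match j, hj with
      | none, _ => simpa using ht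
      | some j, hj =>
        have hj' : j ∈ F.preimage Option.some (Option.some_injective _).injOn := by
          simpa using hj
        have hk' : k ∈ RingHom.ker (u j.1 j.2) := ker_mono hcomp _ _ hI₂ j.2 (hle j hj') hk
        show t - (t + k) ∈ RingHom.ker (u j.1 j.2)
        have : t - (t + k) = -k := by ring
        rw [this]
        exact neg_mem hk')
  have hgN : g ∈ N := by simpa using hg none
  have hgf : f - g ∈ limKer U u := by
    rw [mem_limKer]
    intro I hI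
    have := hg (some ⟨I, hI⟩)
    have h5 : g - f ∈ RingHom.ker (u I hI) := this
    rw [RingHom.mem_ker] at h5
    rw [← neg_sub, map_neg, h5, neg_zero]
  have : f = (f - g) + g := by ring
  rw [this]
  exact Submodule.add_mem_sup hgf hgN

end Main

section Assembly

variable {𝒪 S P : Type} [CommRing 𝒪] [IsLocalRing 𝒪] [CommRing S] [IsLocalRing S]
  [IsNoetherianRing S] [IsAdicComplete (maximalIdeal S) S] [Algebra 𝒪 S]
  [IsLocalHom (algebraMap 𝒪 S)] [CommRing P] [Algebra 𝒪 P]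
variable {U : Set (Ideal P)} {u : ∀ I : Ideal P, I ∈ U → (S →ₐ[𝒪] P ⧸ I)}

omit [IsLocalRing 𝒪] [IsLocalRing S] [IsNoetherianRing S] [IsAdicComplete (maximalIdeal S) S]
  [IsLocalHom (algebraMap 𝒪 S)] in
theorem limKer_ne_top (hne : U.Nonempty) (hproper : ∀ I ∈ U, I ≠ ⊤) : limKer U u ≠ ⊤ := by
  obtain ⟨I, hI⟩ := hne
  intro h
  have h1 : (1 : S) ∈ limKer U u := by rw [h]; trivial
  have h2 := (mem_limKer U u).1 h1 I hI
  rw [map_one] at h2
  have : Nontrivial (P ⧸ I) := Ideal.Quotient.nontrivial_iff.mpr (hproper I hI)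
  exact one_ne_zero h2

/-- The abstract pro-limit construction. -/
theorem nonempty_proLimitData
    (hres : Function.Surjective (residue S ∘ algebraMap 𝒪 S))
    (hfin : ∀ m, Finite (S ⧸ maximalIdeal S ^ m))
    (U : Set (Ideal P)) (hne : U.Nonempty) (hinf : ∀ I ∈ U, ∀ I' ∈ U, I ⊓ I' ∈ U)
    (hproper : ∀ I ∈ U, I ≠ ⊤)
    (u : ∀ I : Ideal P, I ∈ U → (S →ₐ[𝒪] P ⧸ I))
    (hsurj : ∀ (I : Ideal P) (hI : I ∈ U), Function.Surjective (u I hI))
    (hcomp : ∀ (I I' : Ideal P) (hI : I ∈ U) (hI' : I' ∈ U) (h : I ≤ I') (x : S),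
      Ideal.Quotient.factor h (u I hI x) = u I' hI' x)
    (hopen : ∀ (I : Ideal P) (hI : I ∈ U), ∃ m, maximalIdeal S ^ m ≤ RingHom.ker (u I hI)) :
    Nonempty (ProLimitData 𝒪 P U) := by
  classical
  set J : Ideal S := limKer U u with hJ
  have hJtop : J ≠ ⊤ := limKer_ne_top hne hproper
  have : Nontrivial (S ⧸ J) := Ideal.Quotient.nontrivial_iff.mpr hJtop
  have hloc : IsLocalRing (S ⧸ J) :=
    IsLocalRing.of_surjective' (Ideal.Quotient.mk J) Ideal.Quotient.mk_surjective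
  have hmk : IsLocalHom (Ideal.Quotient.mk J) :=
    Function.Surjective.isLocalHom (Ideal.Quotient.mk J) Ideal.Quotient.mk_surjective
  have hmk' : IsLocalHom (algebraMap S (S ⧸ J)) := hmk
  have hcomplete : IsAdicComplete (maximalIdeal (S ⧸ J)) (S ⧸ J) :=
    IsLocalRing.isAdicComplete_of_module_finite (𝒪 := S) (T := S ⧸ J)
  have hlocHom : IsLocalHom (algebraMap 𝒪 (S ⧸ J)) := by
    have : algebraMap 𝒪 (S ⧸ J) = (Ideal.Quotient.mk J).comp (algebraMap 𝒪 S) := rfl
    rw [this]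
    exact RingHom.isLocalHom_comp _ _
  -- the map `ι`
  have hlift := exists_lift_of_compatible hfin hne hinf hsurj hcomp hopen
  choose lift hlift using hlift
  have hπι : ∀ (I : Ideal P) (hI : I ∈ U) (x : P),
      limProj U u I hI (Ideal.Quotient.mk J (lift x)) = Ideal.Quotient.mk I x := by
    intro I hI x
    rw [limProj_mk, hlift x I hI]
  let ι : P →ₐ[𝒪] S ⧸ J :=
    { toFun := fun x => Ideal.Quotient.mk J (lift x)
      map_one' := limProj_ext U u fun I hI => by rw [hπι, map_one, map_one]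
      map_mul' := fun x y => limProj_ext U u fun I hI => by
        rw [hπι, map_mul, map_mul, hπι, hπι]
      map_zero' := limProj_ext U u fun I hI => by rw [hπι, map_zero, map_zero]
      map_add' := fun x y => limProj_ext U u fun I hI => by
        rw [hπι, map_add, map_add, hπι, hπι]
      commutes' := fun r => limProj_ext U u fun I hI => by
        rw [hπι, AlgHom.commutes]
        rfl }
  refine ⟨{
    R := S ⧸ J
    residue_surjective := ?_
    ι := ι
    π := limProj U u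
    π_ι := hπι
    π_comp := limProj_comp hcomp
    π_injective := limProj_jointly_injective U u
    cofinal := ?_ }⟩
  · intro y
    obtain ⟨s', rfl⟩ := residue_surjective y
    obtain ⟨s, rfl⟩ := Ideal.Quotient.mk_surjective s'
    obtain ⟨a, ha⟩ := hres (residue S s)
    refine ⟨a, ?_⟩
    have h1 : algebraMap 𝒪 S a - s ∈ maximalIdeal S := by
      rw [← residue_eq_zero_iff, map_sub, sub_eq_zero]
      exact ha
    have h2 : Ideal.Quotient.mk J (algebraMap 𝒪 S a - s) ∈ maximalIdeal (S ⧸ J) := by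
      rw [mem_maximalIdeal, mem_nonunits_iff] at h1 ⊢
      exact fun h => h1 (isUnit_of_map_unit (Ideal.Quotient.mk J) _ h)
    show residue (S ⧸ J) (Ideal.Quotient.mk J (algebraMap 𝒪 S a)) = _
    rw [← sub_eq_zero, ← map_sub, ← map_sub, residue_eq_zero_iff]
    exact h2
  · intro n
    obtain ⟨I, hI, hle⟩ := exists_ker_le_limKer_sup_pow hfin hne hinf hcomp hopen n
    refine ⟨I, hI, fun x hx => ?_⟩
    obtain ⟨s, rfl⟩ := Ideal.Quotient.mk_surjective x
    rw [RingHom.mem_ker, limProj_mk] at hx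
    have hs : s ∈ limKer U u ⊔ maximalIdeal S ^ n := hle (RingHom.mem_ker.mpr hx)
    obtain ⟨j, hj, t, ht, rfl⟩ := Submodule.mem_sup.1 hs
    rw [map_add, Ideal.Quotient.eq_zero_iff_mem.mpr hj, zero_add]
    have h3 : Ideal.map (Ideal.Quotient.mk J) (maximalIdeal S ^ n) ≤
        maximalIdeal (S ⧸ J) ^ n := by
      rw [Ideal.map_pow]
      refine Ideal.pow_right_mono (Ideal.map_le_iff_le_comap.mpr fun a ha => ?_) n
      rw [Ideal.mem_comap, mem_maximalIdeal, mem_nonunits_iff]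
      exact fun h => ha (isUnit_of_map_unit (Ideal.Quotient.mk J) _ h)
    exact h3 (Ideal.mem_map_of_mem _ ht)

end Assembly

end Fermat.Agent.Lib.Helper5
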