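/-
S53 (universal deformation ring): pro-limit from uniform generators.

`U` is a nonempty `⊓`-closed family of ideals of an `𝒪`-algebra `P` with `P ⧸ I` Artinian local,
and `p : Fin m → P` are finitely many elements which are non-units in every `P ⧸ I` and generate
every `P ⧸ I` as an `𝒪`-algebra.  Then the power series ring `S = 𝒪[[T_1, …, T_m]]` surjects
compatibly onto all `P ⧸ I` (via `T_c ↦ p c`), and `ProLimit.lean` gives a `ProLimitData 𝒪 P U`.
-/
import Mathlib
import Fermat.Agent.Lib.Helper5.ProLimit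
import Fermat.Agent.Lib.Helper4.EvalNilp
import Fermat.Agent.Lib.Helper7.PowerSeriesComplete

set_option autoImplicit false
set_option linter.style.haveILetI false

namespace Fermat.Agent.Lib.Helper5

open IsLocalRing

/-- In an Artinian local ring the maximal ideal is nilpotent. -/
theorem exists_maximalIdeal_pow_eq_bot (A : Type*) [CommRing A] [IsLocalRing A]
    [IsArtinianRing A] : ∃ n : ℕ, maximalIdeal A ^ n = ⊥ := by
  have h := IsArtinianRing.isNilpotent_jacobson_bot (R := A)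
  rw [IsLocalRing.jacobson_eq_maximalIdeal ⊥ bot_ne_top] at h
  obtain ⟨n, hn⟩ := h
  exact ⟨n, by rw [hn]; rfl⟩

/-- Non-units of an Artinian local ring are nilpotent. -/
theorem isNilpotent_of_not_isUnit {A : Type*} [CommRing A] [IsLocalRing A]
    [IsArtinianRing A] {x : A} (hx : ¬ IsUnit x) : IsNilpotent x := by
  obtain ⟨n, hn⟩ := exists_maximalIdeal_pow_eq_bot A
  refine ⟨n, ?_⟩
  have h1 : x ^ n ∈ maximalIdeal A ^ n := Ideal.pow_mem_pow ((mem_maximalIdeal x).mpr hx) n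
  rw [hn, Ideal.mem_bot] at h1
  exact h1

/-- **Pro-limit from uniform generators.** -/
theorem nonempty_proLimitData_of_generators
    {𝒪 P : Type} [CommRing 𝒪] [IsLocalRing 𝒪] [IsNoetherianRing 𝒪]
    [IsAdicComplete (maximalIdeal 𝒪) 𝒪] [Finite (ResidueField 𝒪)] [CommRing P] [Algebra 𝒪 P]
    (U : Set (Ideal P)) (hne : U.Nonempty) (hinf : ∀ I ∈ U, ∀ I' ∈ U, I ⊓ I' ∈ U)
    (hloc : ∀ I ∈ U, IsLocalRing (P ⧸ I)) (hart : ∀ I ∈ U, IsArtinianRing (P ⧸ I))
    (m : ℕ) (p : Fin m → P)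
    (hp : ∀ I ∈ U, ∀ c, ¬ IsUnit (Ideal.Quotient.mk I (p c)))
    (hgen : ∀ I ∈ U, Algebra.adjoin 𝒪 (Set.range fun c => Ideal.Quotient.mk I (p c)) = ⊤) :
    Nonempty (ProLimitData 𝒪 P U) := by
  classical
  have hS1 : IsAdicComplete (maximalIdeal (MvPowerSeries (Fin m) 𝒪)) (MvPowerSeries (Fin m) 𝒪) :=
    Helper7.isAdicComplete_mvPowerSeries
  have hS2 : IsLocalHom (algebraMap 𝒪 (MvPowerSeries (Fin m) 𝒪)) :=
    Helper7.isLocalHom_algebraMap_mvPowerSeries
  have hres : Function.Surjective (residue (MvPowerSeries (Fin m) 𝒪) ∘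
      algebraMap 𝒪 (MvPowerSeries (Fin m) 𝒪)) := Helper7.residue_comp_algebraMap_surjective
  have hfin : ∀ n : ℕ, Finite (MvPowerSeries (Fin m) 𝒪 ⧸
      maximalIdeal (MvPowerSeries (Fin m) 𝒪) ^ n) :=
    fun n => Helper7.finite_quotient_maximalIdeal_pow_mvPowerSeries n
  have hnilp : ∀ (I : Ideal P) (hI : I ∈ U) (c : Fin m),
      IsNilpotent (Ideal.Quotient.mk I (p c)) := by
    intro I hI c
    haveI := hloc I hI
    haveI := hart I hI
    exact isNilpotent_of_not_isUnit (hp I hI c)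
  let u : ∀ I : Ideal P, I ∈ U → (MvPowerSeries (Fin m) 𝒪 →ₐ[𝒪] P ⧸ I) := fun I hI =>
    Helper4.evalNilp (fun c => Ideal.Quotient.mk I (p c)) (hnilp I hI)
  have huX : ∀ (I : Ideal P) (hI : I ∈ U) (c : Fin m),
      u I hI (MvPowerSeries.X c) = Ideal.Quotient.mk I (p c) :=
    fun I hI c => Helper4.evalNilp_X _ _ c
  -- the values on the variables generate a nilpotent ideal
  have hspan : ∀ (I : Ideal P) (hI : I ∈ U), ∃ n : ℕ,
      Ideal.span (Set.range fun i => u I hI (MvPowerSeries.X i)) ^ n = ⊥ := by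
    intro I hI
    haveI := hloc I hI
    haveI := hart I hI
    obtain ⟨n, hn⟩ := exists_maximalIdeal_pow_eq_bot (P ⧸ I)
    refine ⟨n, ?_⟩
    rw [eq_bot_iff, ← hn]
    refine Ideal.pow_right_mono (Ideal.span_le.mpr ?_) n
    rintro _ ⟨c, rfl⟩
    show u I hI (MvPowerSeries.X c) ∈ maximalIdeal (P ⧸ I)
    rw [huX I hI c, mem_maximalIdeal, mem_nonunits_iff]
    exact hp I hI c
  have hsurj : ∀ (I : Ideal P) (hI : I ∈ U), Function.Surjective (u I hI) := by
    intro I hI
    obtain ⟨n, hn⟩ := hspan I hI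
    have h1 := Helper7.algHom_range_eq_adjoin (u I hI) hn
    have h2 : (fun i => u I hI (MvPowerSeries.X i)) = fun c => Ideal.Quotient.mk I (p c) :=
      funext fun c => huX I hI c
    rw [h2, hgen I hI] at h1
    intro y
    have : y ∈ (u I hI).range := by rw [h1]; trivial
    exact this
  refine nonempty_proLimitData hres hfin U hne hinf ?_ u hsurj ?_ ?_
  · intro I hI h
    haveI := hloc I hI
    have : Nontrivial (P ⧸ I) := inferInstance
    exact (Ideal.Quotient.nontrivial_iff.mp this) h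
  · intro I I' hI hI' h x
    have h1 := Helper4.evalNilp_comp (fun c => Ideal.Quotient.mk I (p c)) (hnilp I hI)
      (Ideal.Quotient.factorₐ 𝒪 h) x
    have h2 : ((Ideal.Quotient.factorₐ 𝒪 h : P ⧸ I →ₐ[𝒪] P ⧸ I') ∘
        fun c => Ideal.Quotient.mk I (p c)) = fun c => Ideal.Quotient.mk I' (p c) := by
      funext c
      simp
    show Ideal.Quotient.factor h (Helper4.evalNilp _ _ x) = Helper4.evalNilp _ _ x
    have h3 : Ideal.Quotient.factor h (Helper4.evalNilp (fun c => Ideal.Quotient.mk I (p c))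
        (hnilp I hI) x) = (Ideal.Quotient.factorₐ 𝒪 h)
          (Helper4.evalNilp (fun c => Ideal.Quotient.mk I (p c)) (hnilp I hI) x) := rfl
    rw [h3, h1]
    congr 1
  · intro I hI
    haveI := hloc I hI
    haveI := hart I hI
    obtain ⟨n, hn⟩ := exists_maximalIdeal_pow_eq_bot (P ⧸ I)
    refine ⟨n, fun x hx => ?_⟩
    have hlocal : IsLocalHom ((u I hI : MvPowerSeries (Fin m) 𝒪 →ₐ[𝒪] P ⧸ I) :
        MvPowerSeries (Fin m) 𝒪 →+* P ⧸ I) :=
      Function.Surjective.isLocalHom _ (hsurj I hI)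
    have h1 : Ideal.map ((u I hI : MvPowerSeries (Fin m) 𝒪 →ₐ[𝒪] P ⧸ I) :
        MvPowerSeries (Fin m) 𝒪 →+* P ⧸ I) (maximalIdeal (MvPowerSeries (Fin m) 𝒪) ^ n) ≤
        maximalIdeal (P ⧸ I) ^ n := by
      rw [Ideal.map_pow]
      refine Ideal.pow_right_mono (Ideal.map_le_iff_le_comap.mpr fun a ha => ?_) n
      rw [Ideal.mem_comap, mem_maximalIdeal, mem_nonunits_iff]
      exact fun h => ha (isUnit_of_map_unit _ _ h)
    have h2 := h1 (Ideal.mem_map_of_mem _ hx)
    rw [hn, Ideal.mem_bot] at h2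
    exact RingHom.mem_ker.mpr h2

end Fermat.Agent.Lib.Helper5
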