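import Mathlib

/-!
A finitely generated module over a Noetherian local ring whose maximal ideal is generated by
`n` elements, carrying a regular sequence of length `n` inside the maximal ideal, is free.
(This is the special case of Auslander--Buchsbaum needed for the patching descent step.)
-/

set_option autoImplicit false

namespace Fermat.Agent.Lib.Helper5

open IsLocalRing RingTheory.Sequence CategoryTheory Abelian Pointwise

universe u

section quotient

variable {R : Type u} [CommRing R] [IsLocalRing R]

theorem nontrivial_quot_span_singleton {x : R} (hx : x ∈ maximalIdeal R) :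
    Nontrivial (R ⧸ Ideal.span {x}) := by
  apply Ideal.Quotient.nontrivial_iff.mpr
  intro h
  rw [Ideal.span_singleton_eq_top] at h
  exact hx h

theorem isLocalRing_quot_span_singleton {x : R} (hx : x ∈ maximalIdeal R) :
    IsLocalRing (R ⧸ Ideal.span {x}) :=
  haveI := nontrivial_quot_span_singleton hx
  IsLocalRing.of_surjective' (Ideal.Quotient.mk (Ideal.span {x})) Ideal.Quotient.mk_surjective

theorem map_mk_maximalIdeal {x : R} (hx : x ∈ maximalIdeal R) :
    haveI := isLocalRing_quot_span_singleton hx
    (maximalIdeal R).map (Ideal.Quotient.mk (Ideal.span {x})) =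
      maximalIdeal (R ⧸ Ideal.span {x}) := by
  have := isLocalRing_quot_span_singleton hx
  have hI : Ideal.span {x} ≠ ⊤ := by
    rw [Ne, Ideal.span_singleton_eq_top]; exact hx
  have := IsLocalHom.of_surjective (Ideal.Quotient.mk (Ideal.span {x}))
    Ideal.Quotient.mk_surjective
  ext y
  obtain ⟨y, rfl⟩ := Ideal.Quotient.mk_surjective y
  simp [sup_eq_left.mpr (le_maximalIdeal hI)]

end quotient

theorem exists_regular_not_mem_sq {R : Type u} [CommRing R] [IsLocalRing R] [IsNoetherianRing R]
    (N : Type u) [AddCommGroup N] [Module R N] [Module.Finite R N] [Nontrivial N]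
    {z : R} (hz : z ∈ maximalIdeal R) (hreg : IsSMulRegular N z) :
    ∃ x ∈ maximalIdeal R, x ∉ maximalIdeal R ^ 2 ∧ IsSMulRegular N x := by
  classical
  -- the finite set of associated primes
  have hfin := associatedPrimes.finite R N
  set s : Finset (Ideal R) := hfin.toFinset with hs
  -- prime avoidance with the extra (non-prime) ideal `m ^ 2`
  by_contra hcon
  push Not at hcon
  have hsub : ((maximalIdeal R : Ideal R) : Set R) ⊆
      ⋃ i ∈ ((insert (maximalIdeal R ^ 2) s : Finset (Ideal R)) : Set (Ideal R)), ((id i : Ideal R) : Set R) := by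
    intro x hx
    by_cases hx2 : x ∈ maximalIdeal R ^ 2
    · refine Set.mem_iUnion₂.mpr ⟨maximalIdeal R ^ 2, ?_, hx2⟩
      simp
    · have hnr := hcon x hx hx2
      -- x is a zero divisor on N, so lies in an associated prime
      have hzd : x ∈ { r : R | ∃ v : N, v ≠ 0 ∧ r • v = 0 } := by
        by_contra hn
        apply hnr
        intro a b hab
        simp only [Set.mem_ofPred_eq, not_exists, not_and] at hn
        by_contra hne
        exact hn (a - b) (sub_ne_zero.mpr hne) (by rw [smul_sub]; exact sub_eq_zero.mpr hab)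
      rw [← biUnion_associatedPrimes_eq_zero_divisors R N] at hzd
      obtain ⟨p, hp, hxp⟩ := Set.mem_iUnion₂.mp hzd
      refine Set.mem_iUnion₂.mpr ⟨p, ?_, hxp⟩
      simp [hs, hp]
  rw [Ideal.subset_union_prime (maximalIdeal R ^ 2) (maximalIdeal R ^ 2)] at hsub
  · obtain ⟨p, hp, hle⟩ := hsub
    rw [Finset.mem_insert] at hp
    rcases hp with rfl | hp
    · -- m ≤ m^2 forces m = ⊥ by Nakayama, so z = 0 is regular on a nontrivial module
      have hbot : maximalIdeal R = ⊥ := by
        apply Submodule.eq_bot_of_le_smul_of_le_jacobson_bot (maximalIdeal R) (maximalIdeal R)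
          (IsNoetherian.noetherian _)
        · rw [smul_eq_mul, ← pow_two]; exact hle
        · exact (jacobson_eq_maximalIdeal ⊥ bot_ne_top).ge
      rw [hbot, Ideal.mem_bot] at hz
      subst hz
      obtain ⟨v, hv⟩ := exists_ne (0 : N)
      exact hv (hreg (by simp))
    · -- m ≤ p with p associated: z ∈ p is a zero divisor
      have hp' : p ∈ associatedPrimes R N := by simpa [hs] using hp
      have hzp : z ∈ { r : R | ∃ v : N, v ≠ 0 ∧ r • v = 0 } := by
        rw [← biUnion_associatedPrimes_eq_zero_divisors R N]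
        exact Set.mem_iUnion₂.mpr ⟨p, hp', hle hz⟩
      obtain ⟨v, hv, hzv⟩ := hzp
      exact hv (hreg (by simpa using hzv))
  · intro i hi hne _
    rw [Finset.mem_insert] at hi
    rcases hi with rfl | hi
    · exact absurd rfl hne
    · have hi' : i ∈ associatedPrimes R N := by simpa [hs] using hi
      exact hi'.isPrime

theorem exists_generators_quot {R : Type u} [CommRing R] [IsLocalRing R] {n : ℕ}
    (g : Fin (n + 1) → R)
    (hg : Ideal.span (Set.range g) = maximalIdeal R) {x : R} (hx : x ∈ maximalIdeal R)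
    (hx2 : x ∉ maximalIdeal R ^ 2) :
    haveI := isLocalRing_quot_span_singleton hx
    ∃ g' : Fin n → R ⧸ Ideal.span {x},
      Ideal.span (Set.range g') = maximalIdeal (R ⧸ Ideal.span {x}) := by
  have := isLocalRing_quot_span_singleton hx
  have hx' := hx
  rw [← hg, Ideal.mem_span_range_iff_exists_fun] at hx'
  obtain ⟨c, hc⟩ := hx'
  -- some coefficient is a unit
  have hunit : ∃ j, IsUnit (c j) := by
    by_contra hno
    push Not at hno
    apply hx2
    rw [← hc, pow_two]
    refine Ideal.sum_mem _ fun i _ => Ideal.mul_mem_mul ((mem_maximalIdeal _).mpr (hno i)) ?_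
    rw [← hg]; exact Ideal.subset_span ⟨i, rfl⟩
  obtain ⟨j, hj⟩ := hunit
  obtain ⟨u, hu⟩ := hj
  let mk := Ideal.Quotient.mk (Ideal.span {x})
  refine ⟨fun i => mk (g (j.succAbove i)), ?_⟩
  rw [← map_mk_maximalIdeal hx, ← hg, Ideal.map_span]
  apply le_antisymm
  · apply Ideal.span_mono
    rintro _ ⟨i, rfl⟩
    exact ⟨g (j.succAbove i), ⟨_, rfl⟩, rfl⟩
  · rw [Ideal.span_le]
    rintro _ ⟨_, ⟨i, rfl⟩, rfl⟩
    by_cases hij : i = j
    · subst hij
      have h0 : mk (∑ k, c k * g k) = 0 := by
        rw [hc]; exact Ideal.Quotient.eq_zero_iff_mem.mpr (Ideal.mem_span_singleton_self x)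
      have hsum : mk (c i) * mk (g i) +
          ∑ k : Fin n, mk (c (i.succAbove k)) * mk (g (i.succAbove k)) = 0 := by
        rw [← h0, map_sum, Fin.sum_univ_succAbove _ i]
        simp [map_mul]
      have h1 : mk (↑u⁻¹ : R) * mk (c i) = 1 := by
        rw [← map_mul, ← hu, Units.inv_mul, map_one]
      have hgi : mk (g i) = mk (↑u⁻¹ : R) *
          (-∑ k : Fin n, mk (c (i.succAbove k)) * mk (g (i.succAbove k))) := by
        rw [← eq_neg_of_add_eq_zero_left hsum, ← mul_assoc, h1, one_mul]
      rw [SetLike.mem_coe, hgi]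
      refine Ideal.mul_mem_left _ _ (Ideal.neg_mem_iff _ |>.mpr ?_)
      refine Ideal.sum_mem _ fun k _ => Ideal.mul_mem_left _ _ ?_
      exact Ideal.subset_span ⟨k, rfl⟩
    · obtain ⟨k, rfl⟩ := Fin.exists_succAbove_eq hij
      exact Ideal.subset_span ⟨k, rfl⟩

theorem maximalIdeal_smul_top_lt_top {R : Type u} [CommRing R] [IsLocalRing R]
    (N : Type u) [AddCommGroup N] [Module R N] [Module.Finite R N] [Nontrivial N] :
    maximalIdeal R • (⊤ : Submodule R N) < ⊤ := by
  rw [lt_top_iff_ne_top]
  intro h
  have hbot : (⊤ : Submodule R N) = ⊥ :=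
    Submodule.eq_bot_of_le_smul_of_le_jacobson_bot (maximalIdeal R) ⊤ Module.Finite.fg_top
      h.ge (jacobson_eq_maximalIdeal ⊥ bot_ne_top).ge
  exact top_ne_bot hbot

theorem exists_isRegular_quotSMulTop {R : Type u} [CommRing R] [IsLocalRing R] [IsNoetherianRing R]
    (N : Type u) [AddCommGroup N] [Module R N] [Module.Finite R N]
    {n : ℕ} {rs : List R} (hlen : rs.length = n + 1) (hmem : ∀ r ∈ rs, r ∈ maximalIdeal R)
    (hreg : IsRegular N rs) {x : R} (hx : x ∈ maximalIdeal R) (hxreg : IsSMulRegular N x) :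
    ∃ rs' : List R, rs'.length = n ∧ (∀ r ∈ rs', r ∈ maximalIdeal R) ∧
      IsRegular (QuotSMulTop x N) rs' := by
  have ntr : Nontrivial N := hreg.nontrivial
  have ntr' : Nontrivial (QuotSMulTop x N) := nontrivial_quotSMulTop_of_mem_maximalIdeal N hx
  let M : ModuleCat.{u} R := ModuleCat.of R N
  have hfinM : Module.Finite R M := inferInstanceAs (Module.Finite R N)
  have hxM : IsSMulRegular M x := hxreg
  have h4 : ∃ rs : List R, rs.length = n + 1 ∧ (∀ r ∈ rs, r ∈ maximalIdeal R) ∧
      RingTheory.Sequence.IsRegular M rs := ⟨rs, hlen, hmem, hreg⟩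
  have h42 : ∀ i < n + 1, Subsingleton
      (Ext (ModuleCat.of R (Shrink.{u} (R ⧸ maximalIdeal R))) M i) :=
    ((ModuleCat.exists_isRegular_tfae (maximalIdeal R) (n + 1) M
      (maximalIdeal_smul_top_lt_top N)).out 3 1).mp h4
  let M' : ModuleCat.{u} R := ModuleCat.of R (QuotSMulTop x N)
  have hfinM' : Module.Finite R M' := inferInstanceAs (Module.Finite R (QuotSMulTop x N))
  have h2 : ∀ i < n, Subsingleton
      (Ext (ModuleCat.of R (Shrink.{u} (R ⧸ maximalIdeal R))) M' i) := by
    intro i hi
    have zero1 := AddCommGrpCat.isZero_of_iff_subsingleton.mpr (h42 i (by omega))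
    have zero2 := AddCommGrpCat.isZero_of_iff_subsingleton.mpr (h42 (i + 1) (by omega))
    exact AddCommGrpCat.subsingleton_of_isZero <| ShortComplex.Exact.isZero_of_both_zeros
      ((Ext.covariant_sequence_exact₃' _ hxM.smulShortComplex_shortExact) i (i + 1) rfl)
      (zero1.eq_zero_of_src _) (zero2.eq_zero_of_tgt _)
  exact ((ModuleCat.exists_isRegular_tfae (maximalIdeal R) n M'
    (maximalIdeal_smul_top_lt_top (QuotSMulTop x N))).out 1 3).mp h2

/-- A finitely generated module over a Noetherian local ring whose maximal ideal is generated by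
`n` elements, carrying a regular sequence of length `n` inside the maximal ideal, is free. -/
theorem free_of_isRegular_of_span_eq_maximalIdeal (n : ℕ) :
    ∀ (R : Type u) [CommRing R] [IsLocalRing R] [IsNoetherianRing R]
      (N : Type u) [AddCommGroup N] [Module R N] [Module.Finite R N]
      (g : Fin n → R) (_ : Ideal.span (Set.range g) = maximalIdeal R)
      (rs : List R) (_ : rs.length = n) (_ : ∀ r ∈ rs, r ∈ maximalIdeal R)
      (_ : IsRegular N rs), Module.Free R N := by
  induction n with
  | zero =>
    intro R _ _ _ N _ _ _ g hg rs _ _ _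
    have hbot : maximalIdeal R = ⊥ := by
      rw [← hg]
      have : Set.range g = ∅ := Set.range_eq_empty g
      rw [this, Ideal.span_empty]
    have hF : IsField R := isField_iff_maximalIdeal_eq.mpr hbot
    let := hF.toField
    exact Module.Free.of_divisionRing R N
  | succ n ih =>
    intro R _ _ _ N _ _ _ g hg rs hlen hmem hreg
    have ntr : Nontrivial N := hreg.nontrivial
    -- the first element of the regular sequence
    obtain ⟨z, rs₀, rfl⟩ : ∃ z rs₀, rs = z :: rs₀ := by
      cases rs with
      | nil => simp at hlen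
      | cons z rs₀ => exact ⟨z, rs₀, rfl⟩
    have hz : z ∈ maximalIdeal R := hmem z List.mem_cons_self
    have hzreg : IsSMulRegular N z := ((isRegular_cons_iff N z rs₀).mp hreg).1
    obtain ⟨x, hx, hx2, hxreg⟩ := exists_regular_not_mem_sq N hz hzreg
    have := isLocalRing_quot_span_singleton hx
    obtain ⟨g', hg'⟩ := exists_generators_quot g hg hx hx2
    obtain ⟨rs', hlen', hmem', hreg'⟩ :=
      exists_isRegular_quotSMulTop N hlen hmem hreg hx hxreg
    have hfin' : Module.Finite (R ⧸ Ideal.span {x}) (QuotSMulTop x N) :=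
      Module.Finite.of_restrictScalars_finite R (R ⧸ Ideal.span {x}) (QuotSMulTop x N)
    have ntr' : Nontrivial (QuotSMulTop x N) := nontrivial_quotSMulTop_of_mem_maximalIdeal N hx
    have hmem'' : ∀ r ∈ rs'.map (Ideal.Quotient.mk (Ideal.span {x})),
        r ∈ maximalIdeal (R ⧸ Ideal.span {x}) := by
      intro r hr
      obtain ⟨r₀, hr₀, rfl⟩ := List.mem_map.mp hr
      rw [← map_mk_maximalIdeal hx]
      exact Ideal.mem_map_of_mem _ (hmem' r₀ hr₀)
    have hreg'' : IsRegular (QuotSMulTop x N) (rs'.map (Ideal.Quotient.mk (Ideal.span {x}))) := by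
      apply IsRegular.of_isWeaklyRegular_of_mem_maximalIdeal _ hmem''
      exact (isWeaklyRegular_map_algebraMap_iff (R ⧸ Ideal.span {x}) (QuotSMulTop x N) rs').mpr
        hreg'.toIsWeaklyRegular
    have hfree' : Module.Free (R ⧸ Ideal.span {x}) (QuotSMulTop x N) :=
      ih (R ⧸ Ideal.span {x}) (QuotSMulTop x N) g' hg' _ (by simpa using hlen') hmem'' hreg''
    have : Module.FinitePresentation R N := Module.finitePresentation_of_finite R N
    exact (Module.free_quotSMulTop_iff_free R N
      ((jacobson_eq_maximalIdeal ⊥ bot_ne_top).ge hx) hxreg).mp hfree'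

end Fermat.Agent.Lib.Helper5
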